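import Mathlib
import Fermat.Agent.S24.AnDistinct

/-!
# S37 block [W], leaf (W1-an): the analytic Atkin–Lehner substitution

For a prime `ℓ ∤ N` there is a map `w : ℍ → ℍ` (`z ↦ γ₀ (ℓ z)`, `γ₀ = [[a, b], [N, ℓ]] ∈ Γ₀(N)`,
`ℓ a - N b = 1`) with `j (d · w z) = j (d ℓ z)` and `j (d ℓ · w z) = j (d z)` for all `d ∣ N`.
-/

set_option autoImplicit false

namespace Fermat.Agent.S37.W

open UpperHalfPlane
open Fermat.Agent.S24 Fermat.Agent.S23 Fermat.Agent.LevelOne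
open scoped MatrixGroups

theorem mulN_mulN (d ℓ : ℕ) [NeZero d] [NeZero ℓ] [NeZero (d * ℓ)] (z : ℍ) :
    mulN d (mulN ℓ z) = mulN (d * ℓ) z := by
  apply UpperHalfPlane.ext
  rw [coe_mulN, coe_mulN, coe_mulN]
  push_cast
  ring

/-- `j(d·)` is invariant under `Γ₀(N)` for `d ∣ N` (pointwise form). -/
theorem jAt_smul_of_mem_Gamma0 (N d : ℕ) [NeZero N] [NeZero d] (hd : d ∣ N) {γ : SL(2, ℤ)}
    (hγ : γ ∈ CongruenceSubgroup.Gamma0 N) (z : ℍ) : jAt d (γ • z) = jAt d z := by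
  have h := congrFun (trans_jAt_of_mem_Gamma0 N d hd (inv_mem hγ)) z
  rw [trans_apply, inv_inv] at h
  exact h

/-- The two matrices of the Atkin–Lehner substitution. -/
theorem exists_atkinLehner_matrices (N ℓ : ℕ) (hcop : Nat.Coprime ℓ N) :
    ∃ γ₀ γ₁ : SL(2, ℤ), γ₀ ∈ CongruenceSubgroup.Gamma0 N ∧ γ₁ ∈ CongruenceSubgroup.Gamma0 N ∧
      ∃ a b : ℤ, (γ₀ : Matrix (Fin 2) (Fin 2) ℤ) = !![a, b; (N : ℤ), (ℓ : ℤ)] ∧
        (γ₁ : Matrix (Fin 2) (Fin 2) ℤ) = !![a * ℓ, b; (N : ℤ), 1] := by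
  have hb := Int.gcd_eq_gcd_ab (ℓ : ℤ) (N : ℤ)
  have hg : Int.gcd (ℓ : ℤ) (N : ℤ) = 1 := by
    rw [Int.gcd_natCast_natCast]; exact hcop
  rw [hg] at hb
  set a : ℤ := Int.gcdA ℓ N with ha
  set b : ℤ := -Int.gcdB ℓ N with hb'
  have hdet : a * ℓ - b * N = 1 := by
    rw [hb']; push_cast at hb; linarith
  have hdet0 : Matrix.det !![a, b; (N : ℤ), (ℓ : ℤ)] = 1 := by
    rw [Matrix.det_fin_two_of]; linarith
  have hdet1 : Matrix.det !![a * ℓ, b; (N : ℤ), 1] = 1 := by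
    rw [Matrix.det_fin_two_of]; linarith
  let γ₀ : SL(2, ℤ) := ⟨!![a, b; (N : ℤ), (ℓ : ℤ)], hdet0⟩
  let γ₁ : SL(2, ℤ) := ⟨!![a * ℓ, b; (N : ℤ), 1], hdet1⟩
  refine ⟨γ₀, γ₁, ?_, ?_, a, b, rfl, rfl⟩
  · rw [CongruenceSubgroup.Gamma0_mem]
    show (((N : ℤ) : ℤ) : ZMod N) = 0
    simp
  · rw [CongruenceSubgroup.Gamma0_mem]
    show (((N : ℤ) : ℤ) : ZMod N) = 0
    simp

/-- `ℓ · γ₀ (ℓ z) = γ₁ z`. -/
theorem mulN_smul_mulN_eq (N ℓ : ℕ) [NeZero ℓ] (γ₀ γ₁ : SL(2, ℤ)) (a b : ℤ)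
    (h₀ : (γ₀ : Matrix (Fin 2) (Fin 2) ℤ) = !![a, b; (N : ℤ), (ℓ : ℤ)])
    (h₁ : (γ₁ : Matrix (Fin 2) (Fin 2) ℤ) = !![a * ℓ, b; (N : ℤ), 1]) (z : ℍ) :
    mulN ℓ (γ₀ • mulN ℓ z) = γ₁ • z := by
  have e00 : (γ₀ 0 0 : ℤ) = a := by
    have := congrFun (congrFun h₀ 0) 0; simpa using this
  have e01 : (γ₀ 0 1 : ℤ) = b := by
    have := congrFun (congrFun h₀ 0) 1; simpa using this
  have e10 : (γ₀ 1 0 : ℤ) = N := by
    have := congrFun (congrFun h₀ 1) 0; simpa using this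
  have e11 : (γ₀ 1 1 : ℤ) = ℓ := by
    have := congrFun (congrFun h₀ 1) 1; simpa using this
  have f00 : (γ₁ 0 0 : ℤ) = a * ℓ := by
    have := congrFun (congrFun h₁ 0) 0; simpa using this
  have f01 : (γ₁ 0 1 : ℤ) = b := by
    have := congrFun (congrFun h₁ 0) 1; simpa using this
  have f10 : (γ₁ 1 0 : ℤ) = N := by
    have := congrFun (congrFun h₁ 1) 0; simpa using this
  have f11 : (γ₁ 1 1 : ℤ) = 1 := by
    have := congrFun (congrFun h₁ 1) 1; simpa using this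
  have hden0 : denom γ₀ (mulN ℓ z) ≠ 0 := denom_ne_zero _ _
  have hden1 : denom γ₁ z ≠ 0 := denom_ne_zero _ _
  rw [ModularGroup.denom_apply] at hden0 hden1
  apply UpperHalfPlane.ext
  rw [coe_mulN, UpperHalfPlane.coe_specialLinearGroup_apply,
    UpperHalfPlane.coe_specialLinearGroup_apply]
  simp only [algebraMap_int_eq, Int.coe_castRingHom, Complex.ofReal_intCast]
  rw [e10, e11, coe_mulN] at hden0
  rw [f10, f11] at hden1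
  rw [e00, e01, e10, e11, f00, f01, f10, f11, coe_mulN]
  rw [mul_div_assoc', div_eq_div_iff hden0 hden1]
  push_cast
  ring

/-- **(W1-an)** The analytic Atkin–Lehner substitution. -/
theorem exists_atkinLehner_point (N ℓ : ℕ) [NeZero N] [NeZero ℓ] (hcop : Nat.Coprime ℓ N) :
    ∃ w : ℍ → ℍ, ∀ (d : ℕ) [NeZero d] [NeZero (d * ℓ)], d ∣ N → ∀ z : ℍ,
      jAt d (w z) = jAt (d * ℓ) z ∧ jAt (d * ℓ) (w z) = jAt d z := by
  obtain ⟨γ₀, γ₁, hγ₀, hγ₁, a, b, h₀, h₁⟩ := exists_atkinLehner_matrices N ℓ hcop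
  refine ⟨fun z => γ₀ • mulN ℓ z, fun d _ _ hd z => ⟨?_, ?_⟩⟩
  · rw [jAt_smul_of_mem_Gamma0 N d hd hγ₀, jAt_apply, jAt_apply, mulN_mulN]
  · rw [jAt_apply, ← mulN_mulN d ℓ, mulN_smul_mulN_eq N ℓ γ₀ γ₁ a b h₀ h₁ z, ← jAt_apply,
      jAt_smul_of_mem_Gamma0 N d hd hγ₁]

end Fermat.Agent.S37.W
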