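import Mathlib
import Fermat.Prelude.Def_ModularCurve_HeckeOperator
import Fermat.Prelude.Thm_ModularCurve_coeffMap_qExpand
import Fermat.Agent.S24.Bridge
import Fermat.Agent.S24.EmbFormal
import Fermat.Agent.S37.W.ALPoint

/-!
# S37 block [W], leaf (W1): the Atkin–Lehner involution `w_ℓ` of the function field of `X₀(Nℓ)`

For a prime `ℓ ∤ N` there is a `ℚ̄`-algebra automorphism `w` of `F̄_{Nℓ} = ℚ̄(j(q^e) : e ∣ Nℓ)`
with `w (j(q^d)) = j(q^{dℓ})`, `w (j(q^{dℓ})) = j(q^d)` (`d ∣ N`), `w ∘ w = id`, `w ∘ α = β`,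
`w ∘ β = α` (`α = heckeAlphaBar`, `β = heckeBetaBar`).

Method: by the S24 bridge, a polynomial relation between the formal `j(q^e)` is the same as a
relation between the analytic functions `j(e τ)`; the analytic relations are stable under the
substitution `τ ↦ W τ` (`ALPoint.lean`), which swaps `j(d τ)` and `j(d ℓ τ)`.
-/

set_option autoImplicit false

namespace Fermat.Agent.S37.W

open ModularCurve UpperHalfPlane
open Fermat.Agent.S24 Fermat.Agent.S23 Fermat.Agent.LevelOne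
open scoped MatrixGroups

/-! ### The swap on the divisors of `N ℓ` -/

section Swap

variable (N ℓ : ℕ) [NeZero N] [NeZero ℓ]

theorem dvd_of_dvd_mul_of_not_dvd (hℓ : ℓ.Prime) {e : ℕ} (he : e ∣ N * ℓ) (h : ¬ ℓ ∣ e) :
    e ∣ N :=
  (Nat.Coprime.symm ((Nat.Prime.coprime_iff_not_dvd hℓ).mpr h)).dvd_of_dvd_mul_right he

/-- The swap `d ↔ d ℓ` (`d ∣ N`) on the divisors of `N ℓ`. -/
noncomputable def swapDiv (hℓ : ℓ.Prime) : ↥(N * ℓ).divisors → ↥(N * ℓ).divisors := fun e =>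
  if h : ℓ ∣ (e : ℕ) then
    ⟨(e : ℕ) / ℓ, Nat.mem_divisors.mpr
      ⟨(Nat.div_dvd_of_dvd h).trans (Nat.dvd_of_mem_divisors e.2), NeZero.ne (N * ℓ)⟩⟩
  else
    ⟨(e : ℕ) * ℓ, Nat.mem_divisors.mpr
      ⟨Nat.mul_dvd_mul_right
        (dvd_of_dvd_mul_of_not_dvd N ℓ hℓ (Nat.dvd_of_mem_divisors e.2) h) ℓ,
        NeZero.ne (N * ℓ)⟩⟩

theorem coe_swapDiv_of_dvd (hℓ : ℓ.Prime) (e : ↥(N * ℓ).divisors) (h : ℓ ∣ (e : ℕ)) :
    ((swapDiv N ℓ hℓ e : ↥(N * ℓ).divisors) : ℕ) = (e : ℕ) / ℓ := by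
  rw [swapDiv, dif_pos h]

theorem coe_swapDiv_of_not_dvd (hℓ : ℓ.Prime) (e : ↥(N * ℓ).divisors) (h : ¬ ℓ ∣ (e : ℕ)) :
    ((swapDiv N ℓ hℓ e : ↥(N * ℓ).divisors) : ℕ) = (e : ℕ) * ℓ := by
  rw [swapDiv, dif_neg h]

theorem swapDiv_swapDiv (hℓ : ℓ.Prime) (hℓN : ¬ ℓ ∣ N) (e : ↥(N * ℓ).divisors) :
    swapDiv N ℓ hℓ (swapDiv N ℓ hℓ e) = e := by
  apply Subtype.ext
  by_cases h : ℓ ∣ (e : ℕ)
  · have h1 := coe_swapDiv_of_dvd N ℓ hℓ e h
    have h2 : ¬ ℓ ∣ ((swapDiv N ℓ hℓ e : ↥(N * ℓ).divisors) : ℕ) := by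
      rw [h1]
      intro h3
      apply hℓN
      obtain ⟨e', he'⟩ := h
      have hdvd : (e : ℕ) ∣ N * ℓ := Nat.dvd_of_mem_divisors e.2
      rw [he', Nat.mul_div_cancel_left _ hℓ.pos] at h3
      rw [he', mul_comm ℓ e'] at hdvd
      exact h3.trans (Nat.dvd_of_mul_dvd_mul_right hℓ.pos hdvd)
    rw [coe_swapDiv_of_not_dvd N ℓ hℓ _ h2, h1]
    exact Nat.div_mul_cancel h
  · have h1 := coe_swapDiv_of_not_dvd N ℓ hℓ e h
    have h2 : ℓ ∣ ((swapDiv N ℓ hℓ e : ↥(N * ℓ).divisors) : ℕ) := by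
      rw [h1]; exact dvd_mul_left ℓ _
    rw [coe_swapDiv_of_dvd N ℓ hℓ _ h2, h1]
    exact Nat.mul_div_cancel _ hℓ.pos

end Swap

/-! ### The analytic side -/

section Analytic

theorem jAt_congr {d d' : ℕ} [NeZero d] [NeZero d'] (h : d = d') : jAt d = jAt d' := by
  subst h; rfl

/-- Pointwise evaluation of a polynomial in functions on the upper half plane. -/
theorem aeval_fun_apply {σ : Type*} (f : σ → (ℍ → ℂ)) (P : MvPolynomial σ (AlgebraicClosure ℚ))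
    (z : ℍ) : (MvPolynomial.aeval f P) z = MvPolynomial.aeval (fun i => f i z) P := by
  have h := MvPolynomial.comp_aeval (R := AlgebraicClosure ℚ) (f := f)
    (φ := Pi.evalAlgHom (AlgebraicClosure ℚ) (fun _ : ℍ => ℂ) z)
  have h2 := congrArg (fun g => g P) h
  simp only [AlgHom.comp_apply] at h2
  exact h2

variable (N ℓ : ℕ) [NeZero N] [NeZero ℓ]

/-- The swapped family of analytic generators is the original one composed with `w`. -/
theorem exists_jAtFam_swapDiv (hℓ : ℓ.Prime) (hℓN : ¬ ℓ ∣ N) :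
    ∃ w : ℍ → ℍ, ∀ (e : ↥(N * ℓ).divisors) (z : ℍ),
      jAtFam (N * ℓ) (swapDiv N ℓ hℓ e) z = jAtFam (N * ℓ) e (w z) := by
  have hcop : Nat.Coprime ℓ N := (Nat.Prime.coprime_iff_not_dvd hℓ).mpr hℓN
  obtain ⟨w, hw⟩ := exists_atkinLehner_point N ℓ hcop
  refine ⟨w, fun e z => ?_⟩
  have hdvd : (e : ℕ) ∣ N * ℓ := Nat.dvd_of_mem_divisors e.2
  show jAt ((swapDiv N ℓ hℓ e : ↥(N * ℓ).divisors) : ℕ) z = jAt (e : ℕ) (w z)
  by_cases h : ℓ ∣ (e : ℕ)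
  · -- `e = d ℓ`
    have h1 := coe_swapDiv_of_dvd N ℓ hℓ e h
    have hd : (e : ℕ) / ℓ ∣ N := by
      obtain ⟨e', he'⟩ := h
      rw [he', Nat.mul_div_cancel_left _ hℓ.pos]
      rw [he', mul_comm ℓ e'] at hdvd
      exact Nat.dvd_of_mul_dvd_mul_right hℓ.pos hdvd
    haveI : NeZero ((e : ℕ) / ℓ) := ⟨fun h0 => by
      rw [h0] at hd; exact NeZero.ne N (Nat.eq_zero_of_zero_dvd hd)⟩
    have he : (e : ℕ) = (e : ℕ) / ℓ * ℓ := (Nat.div_mul_cancel h).symm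
    rw [jAt_congr h1, jAt_congr he]
    exact ((hw ((e : ℕ) / ℓ) hd z).2).symm
  · -- `e = d`
    have h1 := coe_swapDiv_of_not_dvd N ℓ hℓ e h
    have hd : (e : ℕ) ∣ N := dvd_of_dvd_mul_of_not_dvd N ℓ hℓ hdvd h
    rw [jAt_congr h1]
    exact ((hw (e : ℕ) hd z).1).symm

/-- Analytic relations are stable under the swap of variables. -/
theorem aeval_jAtFam_rename_swapDiv (hℓ : ℓ.Prime) (hℓN : ¬ ℓ ∣ N)
    (P : MvPolynomial ↥(N * ℓ).divisors (AlgebraicClosure ℚ))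
    (h : MvPolynomial.aeval (jAtFam (N * ℓ)) P = 0) :
    MvPolynomial.aeval (jAtFam (N * ℓ)) (MvPolynomial.rename (swapDiv N ℓ hℓ) P) = 0 := by
  obtain ⟨w, hw⟩ := exists_jAtFam_swapDiv N ℓ hℓ hℓN
  funext z
  rw [MvPolynomial.aeval_rename, aeval_fun_apply]
  have h1 : (fun i => (jAtFam (N * ℓ) ∘ swapDiv N ℓ hℓ) i z)
      = fun i => jAtFam (N * ℓ) i (w z) := by
    funext i
    exact hw i z
  rw [h1, ← aeval_fun_apply, h]
  rfl

theorem rename_swapDiv_rename_swapDiv (hℓ : ℓ.Prime) (hℓN : ¬ ℓ ∣ N)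
    (P : MvPolynomial ↥(N * ℓ).divisors (AlgebraicClosure ℚ)) :
    MvPolynomial.rename (swapDiv N ℓ hℓ) (MvPolynomial.rename (swapDiv N ℓ hℓ) P) = P := by
  rw [MvPolynomial.rename_rename]
  have : swapDiv N ℓ hℓ ∘ swapDiv N ℓ hℓ = id := funext fun e => swapDiv_swapDiv N ℓ hℓ hℓN e
  rw [this, MvPolynomial.rename_id_apply]

theorem aeval_jAtFam_rename_swapDiv_iff (hℓ : ℓ.Prime) (hℓN : ¬ ℓ ∣ N)
    (P : MvPolynomial ↥(N * ℓ).divisors (AlgebraicClosure ℚ)) :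
    MvPolynomial.aeval (jAtFam (N * ℓ)) (MvPolynomial.rename (swapDiv N ℓ hℓ) P) = 0 ↔
      MvPolynomial.aeval (jAtFam (N * ℓ)) P = 0 := by
  constructor
  · intro h
    have h2 := aeval_jAtFam_rename_swapDiv N ℓ hℓ hℓN _ h
    rwa [rename_swapDiv_rename_swapDiv N ℓ hℓ hℓN] at h2
  · exact aeval_jAtFam_rename_swapDiv N ℓ hℓ hℓN P

end Analytic

/-! ### The involution -/

section Involution

variable (N ℓ : ℕ) [NeZero N] [NeZero ℓ]

theorem aeval_genFam_eq_zero_iff (M : ℕ) [NeZero M]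
    (P : MvPolynomial ↥M.divisors (AlgebraicClosure ℚ)) :
    MvPolynomial.aeval (genFam M) P = 0 ↔ MvPolynomial.aeval (JFam M) P = 0 := by
  rw [← polyToRN_eq_zero_iff, ← coe_polyToRN']
  constructor
  · intro h
    exact Subtype.ext h
  · intro h
    rw [h]; rfl

/-- The swapped family of generators satisfies exactly the relations of the original one. -/
theorem aeval_genFam_swapDiv_eq_zero_iff (hℓ : ℓ.Prime) (hℓN : ¬ ℓ ∣ N)
    (P : MvPolynomial ↥(N * ℓ).divisors (AlgebraicClosure ℚ)) :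
    MvPolynomial.aeval (fun e => genFam (N * ℓ) (swapDiv N ℓ hℓ e)) P = 0 ↔
      MvPolynomial.aeval (JFam (N * ℓ)) P = 0 := by
  have h1 : MvPolynomial.aeval (fun e => genFam (N * ℓ) (swapDiv N ℓ hℓ e)) P
      = MvPolynomial.aeval (genFam (N * ℓ)) (MvPolynomial.rename (swapDiv N ℓ hℓ) P) := by
    rw [MvPolynomial.aeval_rename]; rfl
  rw [h1, aeval_genFam_eq_zero_iff, bridge_iff, aeval_jAtFam_rename_swapDiv_iff N ℓ hℓ hℓN,
    ← bridge_iff]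

/-- The Atkin–Lehner endomorphism on generators. -/
theorem exists_atkinLehner_algHom (hℓ : ℓ.Prime) (hℓN : ¬ ℓ ∣ N) :
    ∃ ι : ↥(modularFunctionFieldBar (N * ℓ)) →ₐ[AlgebraicClosure ℚ]
        ↥(modularFunctionFieldBar (N * ℓ)),
      ∀ e, ι (genFam (N * ℓ) e) = genFam (N * ℓ) (swapDiv N ℓ hℓ e) := by
  obtain ⟨ι, -, hι⟩ := exists_algHom_of_eq_zero_iff (N := N * ℓ)
    (MvPolynomial.aeval (fun e => genFam (N * ℓ) (swapDiv N ℓ hℓ e)))
    (aeval_genFam_swapDiv_eq_zero_iff N ℓ hℓ hℓN)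
  refine ⟨ι, fun e => ?_⟩
  rw [hι, MvPolynomial.aeval_X]

/-- **(W1), generator form.** The Atkin–Lehner involution of `F̄_{Nℓ}`. -/
theorem exists_atkinLehner_genFam (hℓ : ℓ.Prime) (hℓN : ¬ ℓ ∣ N) :
    ∃ w : ↥(modularFunctionFieldBar (N * ℓ)) ≃ₐ[AlgebraicClosure ℚ]
        ↥(modularFunctionFieldBar (N * ℓ)),
      (∀ x, w (w x) = x) ∧
      ∀ e, w (genFam (N * ℓ) e) = genFam (N * ℓ) (swapDiv N ℓ hℓ e) := by
  obtain ⟨ι, hι⟩ := exists_atkinLehner_algHom N ℓ hℓ hℓN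
  have hinv : ι.comp ι = AlgHom.id _ _ := by
    apply algHom_ext_genFam
    intro e
    rw [AlgHom.comp_apply, hι, hι, swapDiv_swapDiv N ℓ hℓ hℓN, AlgHom.id_apply]
  refine ⟨AlgEquiv.ofAlgHom ι ι hinv hinv, fun x => ?_, fun e => ?_⟩
  · show ι (ι x) = x
    have := congrArg (fun f => f x) hinv
    simpa using this
  · exact hι e

end Involution

end Fermat.Agent.S37.W
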