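import Mathlib
import Fermat.Agent.S37.W.AL

/-!
# S37 block [W], leaf (W1): the Atkin–Lehner involution swaps the two degeneracy maps

`w ∘ α = β` and `w ∘ β = α`, where `α = heckeAlphaBar ℚ̄ N ℓ` (inclusion `F̄_N ⊂ F̄_{Nℓ}`) and
`β = heckeBetaBar ℚ̄ N ℓ` (`f(q) ↦ f(q^ℓ)`), for a prime `ℓ ∤ N`.
-/

set_option autoImplicit false

namespace Fermat.Agent.S37.W

open ModularCurve UpperHalfPlane
open Fermat.Agent.S24

variable (N ℓ : ℕ) [NeZero N] [NeZero ℓ]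

/-- The divisor `d` of `N`, as a divisor of `N ℓ`. -/
def divLow (d : ↥N.divisors) : ↥(N * ℓ).divisors :=
  ⟨(d : ℕ), Nat.mem_divisors.mpr
    ⟨(Nat.dvd_of_mem_divisors d.2).trans (dvd_mul_right N ℓ), NeZero.ne (N * ℓ)⟩⟩

/-- The divisor `d ℓ` of `N ℓ`, for `d ∣ N`. -/
def divHigh (d : ↥N.divisors) : ↥(N * ℓ).divisors :=
  ⟨(d : ℕ) * ℓ, Nat.mem_divisors.mpr
    ⟨Nat.mul_dvd_mul_right (Nat.dvd_of_mem_divisors d.2) ℓ, NeZero.ne (N * ℓ)⟩⟩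

@[simp] theorem coe_divLow (d : ↥N.divisors) : ((divLow N ℓ d : ↥(N * ℓ).divisors) : ℕ) = d := rfl

@[simp] theorem coe_divHigh (d : ↥N.divisors) :
    ((divHigh N ℓ d : ↥(N * ℓ).divisors) : ℕ) = (d : ℕ) * ℓ := rfl

theorem not_dvd_of_divisor (hℓN : ¬ ℓ ∣ N) (d : ↥N.divisors) : ¬ ℓ ∣ (d : ℕ) := fun h =>
  hℓN (h.trans (Nat.dvd_of_mem_divisors d.2))

theorem swapDiv_divLow (hℓ : ℓ.Prime) (hℓN : ¬ ℓ ∣ N) (d : ↥N.divisors) :
    swapDiv N ℓ hℓ (divLow N ℓ d) = divHigh N ℓ d := by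
  apply Subtype.ext
  rw [coe_swapDiv_of_not_dvd N ℓ hℓ _ (not_dvd_of_divisor N ℓ hℓN d)]
  rfl

theorem swapDiv_divHigh (hℓ : ℓ.Prime) (d : ↥N.divisors) :
    swapDiv N ℓ hℓ (divHigh N ℓ d) = divLow N ℓ d := by
  apply Subtype.ext
  rw [coe_swapDiv_of_dvd N ℓ hℓ _ (dvd_mul_left ℓ _)]
  exact Nat.mul_div_cancel _ hℓ.pos

/-- `α (j(q^d)) = j(q^d)`. -/
theorem heckeAlphaBar_genFam (d : ↥N.divisors) :
    heckeAlphaBar (AlgebraicClosure ℚ) N ℓ (genFam N d) = genFam (N * ℓ) (divLow N ℓ d) := by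
  apply Subtype.ext
  rw [coe_heckeAlphaBar]
  rfl

/-- `β (j(q^d)) = j(q^{dℓ})`. -/
theorem heckeBetaBar_genFam (d : ↥N.divisors) :
    heckeBetaBar (AlgebraicClosure ℚ) N ℓ (genFam N d) = genFam (N * ℓ) (divHigh N ℓ d) := by
  apply Subtype.ext
  rw [coe_heckeBetaBar]
  show qExpand (AlgebraicClosure ℚ) ℓ
      (coeffMap (algebraMap ℚ (AlgebraicClosure ℚ)) (qExpand ℚ (d : ℕ) jq))
    = coeffMap (algebraMap ℚ (AlgebraicClosure ℚ)) (qExpand ℚ ((d : ℕ) * ℓ) jq)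
  rw [← ModularCurve.coeffMap_qExpand, qExpand_qExpand, qExpand_congr (mul_comm ℓ (d : ℕ))]

/-- **(W1)** The Atkin–Lehner involution `w_ℓ` of the function field of `X₀(Nℓ)` over `ℚ̄`,
for a prime `ℓ ∤ N`: a `ℚ̄`-automorphism with `w ∘ w = id`, swapping `j(q^d)` and `j(q^{dℓ})`
for `d ∣ N`, and swapping the two degeneracy maps `α` and `β`. -/
theorem exists_atkinLehner (hℓ : ℓ.Prime) (hℓN : ¬ ℓ ∣ N) :
    ∃ w : ↥(modularFunctionFieldBar (N * ℓ)) ≃ₐ[AlgebraicClosure ℚ]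
        ↥(modularFunctionFieldBar (N * ℓ)),
      (∀ x, w (w x) = x) ∧
      (∀ d : ↥N.divisors, w (genFam (N * ℓ) (divLow N ℓ d)) = genFam (N * ℓ) (divHigh N ℓ d)) ∧
      (∀ d : ↥N.divisors, w (genFam (N * ℓ) (divHigh N ℓ d)) = genFam (N * ℓ) (divLow N ℓ d)) ∧
      (∀ x : ↥(modularFunctionFieldBar N),
        w (heckeAlphaBar (AlgebraicClosure ℚ) N ℓ x) = heckeBetaBar (AlgebraicClosure ℚ) N ℓ x) ∧
      (∀ x : ↥(modularFunctionFieldBar N),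
        w (heckeBetaBar (AlgebraicClosure ℚ) N ℓ x) = heckeAlphaBar (AlgebraicClosure ℚ) N ℓ x) := by
  obtain ⟨w, hww, hw⟩ := exists_atkinLehner_genFam N ℓ hℓ hℓN
  have hlow : ∀ d : ↥N.divisors,
      w (genFam (N * ℓ) (divLow N ℓ d)) = genFam (N * ℓ) (divHigh N ℓ d) := fun d => by
    rw [hw, swapDiv_divLow N ℓ hℓ hℓN]
  have hhigh : ∀ d : ↥N.divisors,
      w (genFam (N * ℓ) (divHigh N ℓ d)) = genFam (N * ℓ) (divLow N ℓ d) := fun d => by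
    rw [hw, swapDiv_divHigh N ℓ hℓ]
  have h1 : (w : ↥(modularFunctionFieldBar (N * ℓ)) →ₐ[AlgebraicClosure ℚ]
        ↥(modularFunctionFieldBar (N * ℓ))).comp (heckeAlphaBar (AlgebraicClosure ℚ) N ℓ)
      = heckeBetaBar (AlgebraicClosure ℚ) N ℓ := by
    apply algHom_ext_genFam
    intro d
    rw [AlgHom.comp_apply, heckeAlphaBar_genFam, heckeBetaBar_genFam]
    exact hlow d
  have h2 : (w : ↥(modularFunctionFieldBar (N * ℓ)) →ₐ[AlgebraicClosure ℚ]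
        ↥(modularFunctionFieldBar (N * ℓ))).comp (heckeBetaBar (AlgebraicClosure ℚ) N ℓ)
      = heckeAlphaBar (AlgebraicClosure ℚ) N ℓ := by
    apply algHom_ext_genFam
    intro d
    rw [AlgHom.comp_apply, heckeAlphaBar_genFam, heckeBetaBar_genFam]
    exact hhigh d
  exact ⟨w, hww, hlow, hhigh, fun x => congrArg (fun f => f x) h1,
    fun x => congrArg (fun f => f x) h2⟩

end Fermat.Agent.S37.W
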