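import Mathlib
import Fermat.Agent.S37.W.ALHecke
import Fermat.Agent.S24.AnDegreeMain
import Fermat.Agent.S24.AnEmbCusp
import Fermat.Agent.S20.Cosets

/-!
# S37 block [W], leaf (W3-deg): `[F̄_{Nℓ} : α F̄_N] = [F̄_{Nℓ} : β F̄_N] = ℓ + 1`

For a prime `ℓ ∤ N`: tower law over `ℚ̄(j)` with the S24 degree `[F̄_M : ℚ̄(j)] = ψ(M)` and
`ψ(Nℓ) = (ℓ + 1) ψ(N)`; the `β`-degree follows from the `α`-degree by the Atkin–Lehner involution.
-/

set_option autoImplicit false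

namespace Fermat.Agent.S37.W

open ModularCurve AlgebraicCurve IntermediateField
open Fermat.Agent.S24

variable (N ℓ : ℕ) [NeZero N] [NeZero ℓ]

/-- `[F̄_M : ℚ̄(j)] = ψ(M)` (S24). -/
theorem finrank_jF_eq (M : ℕ) [NeZero M] :
    Module.finrank Kb⟮jF M⟯ (FN M) = dedekindPsi M :=
  finrank_jF_of_hasCuspEmb (hasCuspEmb M)

theorem heckeAlphaBar_jF : heckeAlphaBar (AlgebraicClosure ℚ) N ℓ (jF N) = jF (N * ℓ) := by
  apply Subtype.ext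
  rw [coe_heckeAlphaBar]
  rfl

theorem map_adjoin_jF :
    (Kb⟮jF N⟯).map (heckeAlphaBar (AlgebraicClosure ℚ) N ℓ) = Kb⟮jF (N * ℓ)⟯ := by
  rw [IntermediateField.adjoin_map, Set.image_singleton, heckeAlphaBar_jF]

/-- `α` restricted to `ℚ̄(j)`. -/
noncomputable def alphaBase : Kb⟮jF N⟯ ≃+* Kb⟮jF (N * ℓ)⟯ :=
  ((IntermediateField.equivMap (Kb⟮jF N⟯) (heckeAlphaBar (AlgebraicClosure ℚ) N ℓ)).trans
    (IntermediateField.equivOfEq (map_adjoin_jF N ℓ))).toRingEquiv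

theorem coe_alphaBase (x : Kb⟮jF N⟯) :
    ((alphaBase N ℓ x : Kb⟮jF (N * ℓ)⟯) : FN (N * ℓ))
      = heckeAlphaBar (AlgebraicClosure ℚ) N ℓ (x : FN N) := rfl

/-- **(W3-deg, α)** `[F̄_{Nℓ} : α F̄_N] = ℓ + 1` for a prime `ℓ ∤ N`. -/
theorem finrankAlong_heckeAlphaBar (hℓ : ℓ.Prime) (hℓN : ¬ ℓ ∣ N) :
    finrankAlong (AlgebraicClosure ℚ) (heckeAlphaBar (AlgebraicClosure ℚ) N ℓ) = ℓ + 1 := by
  letI : Algebra (FN N) (FN (N * ℓ)) := algebraAlong (heckeAlphaBar (AlgebraicClosure ℚ) N ℓ)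
  letI : Algebra Kb⟮jF N⟯ (FN (N * ℓ)) :=
    ((heckeAlphaBar (AlgebraicClosure ℚ) N ℓ).toRingHom.comp
      (algebraMap Kb⟮jF N⟯ (FN N))).toAlgebra
  haveI : IsScalarTower Kb⟮jF N⟯ (FN N) (FN (N * ℓ)) :=
    IsScalarTower.of_algebraMap_eq fun _ => rfl
  have htower : Module.finrank Kb⟮jF N⟯ (FN N) * Module.finrank (FN N) (FN (N * ℓ))
      = Module.finrank Kb⟮jF N⟯ (FN (N * ℓ)) :=
    Module.finrank_mul_finrank Kb⟮jF N⟯ (FN N) (FN (N * ℓ))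
  have hkey : Module.finrank Kb⟮jF N⟯ (FN (N * ℓ))
      = Module.finrank Kb⟮jF (N * ℓ)⟯ (FN (N * ℓ)) := by
    refine Algebra.finrank_eq_of_equiv_equiv (alphaBase N ℓ) (RingEquiv.refl (FN (N * ℓ))) ?_
    exact RingHom.ext fun x => rfl
  have hψ : dedekindPsi (N * ℓ) = (ℓ + 1) * dedekindPsi N := by
    rw [mul_comm N ℓ]
    exact Fermat.Agent.S20.CosetModel.dedekindPsi_prime_mul_of_not_dvd ℓ N hℓ (NeZero.ne N) hℓN
  rw [hkey, finrank_jF_eq, finrank_jF_eq, hψ] at htower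
  have hpos : 0 < dedekindPsi N := AnDegree.dedekindPsi_pos N
  have h2 : Module.finrank (FN N) (FN (N * ℓ)) = ℓ + 1 := by
    have h3 : dedekindPsi N * Module.finrank (FN N) (FN (N * ℓ)) = dedekindPsi N * (ℓ + 1) := by
      rw [htower]; ring
    exact Nat.eq_of_mul_eq_mul_left hpos h3
  exact h2

/-- **(W3-deg, β)** `[F̄_{Nℓ} : β F̄_N] = ℓ + 1` for a prime `ℓ ∤ N`. -/
theorem finrankAlong_heckeBetaBar (hℓ : ℓ.Prime) (hℓN : ¬ ℓ ∣ N) :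
    finrankAlong (AlgebraicClosure ℚ) (heckeBetaBar (AlgebraicClosure ℚ) N ℓ) = ℓ + 1 := by
  obtain ⟨w, -, -, -, hwα, -⟩ := exists_atkinLehner N ℓ hℓ hℓN
  rw [← finrankAlong_heckeAlphaBar N ℓ hℓ hℓN]
  symm
  refine @Algebra.finrank_eq_of_equiv_equiv (FN N) (FN (N * ℓ)) _ _
    (algebraAlong (heckeAlphaBar (AlgebraicClosure ℚ) N ℓ)) (FN N) (FN (N * ℓ)) _ _
    (algebraAlong (heckeBetaBar (AlgebraicClosure ℚ) N ℓ)) (RingEquiv.refl (FN N))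
    w.toRingEquiv ?_
  refine RingHom.ext fun x => ?_
  exact (hwα x).symm

end Fermat.Agent.S37.W
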