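/-
S37 block [W], part (W2) (helper130): the exotic `(ℓ+1)`-th embedding `E_∞` of `F̄_{Nℓ}`.

For a prime `ℓ ∤ N`, `F̄_M = ℚ̄(j(q^d) : d ∣ M) ⊂ ℚ̄((q))`, `α : F̄_N ⊂ F̄_{Nℓ}` the inclusion and
`β : F̄_N → F̄_{Nℓ}`, `f(q) ↦ f(q^ℓ)` (frozen `heckeAlphaBar`, `heckeBetaBar`):

* `exists_delta` (analytic input): a self-map `δ` of the upper half plane hitting every point with
  `j(d δz) = j(d ℓ² z)` and `j(d ℓ δz) = j(d ℓ z)` for all `d ∣ N`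
  (`δ = γ₁ ∘ (ℓ² ·)`, `γ₁ = (u, -v; N, ℓ) ∈ SL(2, ℤ)`, `u ℓ + v N = 1`);
* `exists_exoticEmb`, `exoticEmb`, `exoticEmb_beta`, `exoticEmb_alpha`: a `ℚ̄`-embedding
  `E_∞ : F̄_{Nℓ} → ℚ̄((q))` with `E_∞(β x) = x(q^ℓ)` (so `E_∞` is the identity on `β(F̄_N)`) and
  `E_∞(α x) = x(q^{ℓ²})`; i.e. `j(q^{dℓ}) ↦ j(q^{dℓ})`, `j(q^d) ↦ j(q^{dℓ²})` for `d ∣ N`.

Method: the S24 bridge (formal relations among the `j(q^e)` = analytic relations among the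
`j(e·)`) at the levels `N ℓ` and `N ℓ²`, and `S24.exists_algHom_of_eq_zero_iff`.
-/
import Mathlib
import Fermat.Prelude.Def_ModularCurve_HeckeOperator
import Fermat.Prelude.Thm_ModularCurve_coeffMap_qExpand
import Fermat.Prelude.Def_ModularCurve_X0ModL
import Fermat.Agent.S24.Bridge
import Fermat.Agent.S24.EmbFormal
import Fermat.Agent.S24.AnDistinct

set_option autoImplicit false

namespace Fermat.Agent.S37.W

open UpperHalfPlane ModularCurve AlgebraicCurve HahnSeries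
open Fermat.Agent.S24 Fermat.Agent.S23 Fermat.Agent.LevelOne
open scoped MatrixGroups

local notation "Qb" => AlgebraicClosure ℚ

/-! ### The analytic input -/

theorem exo_mulN_mulN (a b : ℕ) [NeZero a] [NeZero b] [NeZero (a * b)] (z : ℍ) :
    mulN a (mulN b z) = mulN (a * b) z := by
  apply UpperHalfPlane.ext
  rw [coe_mulN, coe_mulN, coe_mulN]
  push_cast
  ring

theorem exo_mulN_surjective (a : ℕ) [NeZero a] : Function.Surjective (mulN a) := by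
  intro w
  have ha : (0 : ℝ) < a := Nat.cast_pos.mpr (NeZero.pos a)
  have him : 0 < ((w : ℂ) / (a : ℂ)).im := by
    have : ((w : ℂ) / (a : ℂ)).im = (w : ℂ).im / a := by
      rw [Complex.div_natCast_im]
    rw [this]
    exact div_pos w.im_pos ha
  refine ⟨⟨(w : ℂ) / (a : ℂ), him⟩, ?_⟩
  apply UpperHalfPlane.ext
  rw [coe_mulN]
  have hane : (a : ℂ) ≠ 0 := Nat.cast_ne_zero.mpr (NeZero.ne a)
  show (a : ℂ) * ((w : ℂ) / (a : ℂ)) = w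
  field_simp

/-- There is a self-map `δ` of the upper half plane (`δ = γ₁ ∘ (ℓ² ·)`, `γ₁ = (u, -v; N, ℓ)`,
`u ℓ + v N = 1`) hitting every point, with `j(d δz) = j(d ℓ² z)` and `j(d ℓ δz) = j(d ℓ z)` for
all `d ∣ N`. -/
theorem exists_delta (N ℓ : ℕ) [NeZero N] [NeZero ℓ] (hcop : Nat.Coprime ℓ N) :
    ∃ δ : ℍ → ℍ, Function.Surjective δ ∧
      ∀ (d : ℕ) [NeZero d] [NeZero (d * ℓ ^ 2)] [NeZero (d * ℓ)], d ∣ N → ∀ z : ℍ,
        jAt d (δ z) = jAt (d * ℓ ^ 2) z ∧ jAt (d * ℓ) (δ z) = jAt (d * ℓ) z := by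
  have hℓ2 : NeZero (ℓ ^ 2) := ⟨pow_ne_zero 2 (NeZero.ne ℓ)⟩
  obtain ⟨u, v, huv⟩ : ∃ u v : ℤ, u * (ℓ : ℤ) + v * (N : ℤ) = 1 := by
    obtain ⟨u, v, h⟩ := Nat.isCoprime_iff_coprime.mpr hcop
    exact ⟨u, v, h⟩
  have hdet : Matrix.det !![u, -v; (N : ℤ), (ℓ : ℤ)] = 1 := by
    rw [Matrix.det_fin_two_of]
    linarith
  set γ₁ : SL(2, ℤ) := ⟨!![u, -v; (N : ℤ), (ℓ : ℤ)], hdet⟩ with hγ₁
  have g00 : (γ₁ 0 0 : ℤ) = u := rfl
  have g01 : (γ₁ 0 1 : ℤ) = -v := rfl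
  have g10 : (γ₁ 1 0 : ℤ) = N := rfl
  have g11 : (γ₁ 1 1 : ℤ) = ℓ := rfl
  refine ⟨fun z => γ₁ • mulN (ℓ ^ 2) z, ?_, ?_⟩
  · intro w
    obtain ⟨z, hz⟩ := exo_mulN_surjective (ℓ ^ 2) (γ₁⁻¹ • w)
    exact ⟨z, by show γ₁ • mulN (ℓ ^ 2) z = w; rw [hz, smul_inv_smul]⟩
  · intro d _ _ _ hd z
    constructor
    · obtain ⟨δ', hδ'⟩ := AnDistinct.exists_mulN_smul_eq d γ₁
        (by rw [g10]; exact Int.natCast_dvd_natCast.mpr hd)
      show jFun (mulN d (γ₁ • mulN (ℓ ^ 2) z)) = jFun (mulN (d * ℓ ^ 2) z)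
      rw [hδ', jFun_smul, exo_mulN_mulN]
    · obtain ⟨m, hm⟩ := hd
      have hdet' : Matrix.det !![(ℓ : ℤ) * u, -((d : ℤ) * v); (m : ℤ), 1] = 1 := by
        rw [Matrix.det_fin_two_of]
        have : (N : ℤ) = (d : ℤ) * m := by exact_mod_cast hm
        rw [this] at huv
        linarith
      set γ' : SL(2, ℤ) := ⟨!![(ℓ : ℤ) * u, -((d : ℤ) * v); (m : ℤ), 1], hdet'⟩ with hγ'
      have e00 : (γ' 0 0 : ℤ) = (ℓ : ℤ) * u := rfl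
      have e01 : (γ' 0 1 : ℤ) = -((d : ℤ) * v) := rfl
      have e10 : (γ' 1 0 : ℤ) = m := rfl
      have e11 : (γ' 1 1 : ℤ) = 1 := rfl
      have key : mulN (d * ℓ) (γ₁ • mulN (ℓ ^ 2) z) = γ' • mulN (d * ℓ) z := by
        have hden0 : denom γ₁ (mulN (ℓ ^ 2) z) ≠ 0 := denom_ne_zero _ _
        have hden1 : denom γ' (mulN (d * ℓ) z) ≠ 0 := denom_ne_zero _ _
        rw [ModularGroup.denom_apply] at hden0 hden1
        apply UpperHalfPlane.ext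
        rw [coe_mulN, UpperHalfPlane.coe_specialLinearGroup_apply,
          UpperHalfPlane.coe_specialLinearGroup_apply]
        simp only [algebraMap_int_eq, Int.coe_castRingHom, Complex.ofReal_intCast]
        rw [g10, g11] at hden0
        rw [e10, e11] at hden1
        rw [g00, g01, g10, g11, e00, e01, e10, e11, coe_mulN, coe_mulN]
        rw [coe_mulN] at hden0 hden1
        have hN : (N : ℂ) = (d : ℂ) * (m : ℂ) := by exact_mod_cast congrArg (Nat.cast : ℕ → ℂ) hm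
        push_cast at hden0 hden1 ⊢
        rw [hN] at hden0 ⊢
        rw [mul_div_assoc', div_eq_div_iff hden0 hden1]
        ring
      show jFun (mulN (d * ℓ) (γ₁ • mulN (ℓ ^ 2) z)) = jFun (mulN (d * ℓ) z)
      rw [key, jFun_smul]

/-! ### Evaluation of polynomials in functions on `ℍ` is pointwise -/

theorem exo_aeval_fun_apply {σ : Type*} (f : σ → (ℍ → ℂ)) (P : MvPolynomial σ Qb) (z : ℍ) :
    (MvPolynomial.aeval f P) z = MvPolynomial.aeval (fun i => f i z) P := by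
  have h := MvPolynomial.comp_aeval (R := Qb) (f := f)
    (φ := (Pi.evalAlgHom Qb (fun _ : ℍ => ℂ) z))
  have h2 := congrArg (fun g => g P) h
  simpa using h2

/-! ### The index map `e ↦ e` (`ℓ ∣ e`), `e ↦ e ℓ²` (`ℓ ∤ e`) on divisors of `N ℓ` -/

/-- The new exponent. -/
def expo (ℓ e : ℕ) : ℕ := if ℓ ∣ e then e else e * ℓ ^ 2

theorem expo_of_dvd (ℓ : ℕ) {e : ℕ} (h : ℓ ∣ e) : expo ℓ e = e := if_pos h

theorem expo_of_not_dvd (ℓ : ℕ) {e : ℕ} (h : ¬ ℓ ∣ e) : expo ℓ e = e * ℓ ^ 2 := if_neg h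

theorem exo_dvd_of_not_dvd {N ℓ : ℕ} (hℓ : ℓ.Prime) {e : ℕ} (he : e ∣ N * ℓ) (h : ¬ ℓ ∣ e) :
    e ∣ N :=
  (Nat.Coprime.dvd_mul_right ((Nat.Prime.coprime_iff_not_dvd hℓ).mpr h).symm).mp he

theorem expo_dvd {N ℓ : ℕ} (hℓ : ℓ.Prime) {e : ℕ} (he : e ∣ N * ℓ) : expo ℓ e ∣ N * ℓ ^ 2 := by
  by_cases h : ℓ ∣ e
  · rw [expo_of_dvd ℓ h]
    exact he.trans ⟨ℓ, by ring⟩
  · rw [expo_of_not_dvd ℓ h]
    exact Nat.mul_dvd_mul_right (exo_dvd_of_not_dvd hℓ he h) _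

/-- The index map on divisors. -/
def rIdx (N ℓ : ℕ) [NeZero N] [NeZero ℓ] (hℓ : ℓ.Prime) (e : ↥(N * ℓ).divisors) :
    ↥(N * ℓ ^ 2).divisors :=
  ⟨expo ℓ (e : ℕ), Nat.mem_divisors.mpr ⟨expo_dvd hℓ (Nat.dvd_of_mem_divisors e.2),
    Nat.mul_ne_zero (NeZero.ne N) (pow_ne_zero 2 (NeZero.ne ℓ))⟩⟩

theorem exo_jAt_congr {a b : ℕ} [NeZero a] [NeZero b] (hab : a = b) (w : ℍ) :
    jAt a w = jAt b w := by
  subst hab
  rfl

/-- The analytic identity behind `E_∞`. -/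
theorem exists_delta_jAtFam (N ℓ : ℕ) [NeZero N] [NeZero ℓ] (hℓ : ℓ.Prime) (hℓN : ¬ ℓ ∣ N) :
    ∃ δ : ℍ → ℍ, Function.Surjective δ ∧
      ∀ (e : ↥(N * ℓ).divisors) (z : ℍ),
        jAtFam (N * ℓ ^ 2) (rIdx N ℓ hℓ e) z = jAtFam (N * ℓ) e (δ z) := by
  obtain ⟨δ, hδs, hδ⟩ := exists_delta N ℓ ((Nat.Prime.coprime_iff_not_dvd hℓ).mpr hℓN)
  refine ⟨δ, hδs, fun e z => ?_⟩
  obtain ⟨e, he⟩ := e
  have hedvd : e ∣ N * ℓ := Nat.dvd_of_mem_divisors he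
  have he0 : e ≠ 0 := (Nat.pos_of_mem_divisors he).ne'
  haveI : NeZero e := ⟨he0⟩
  have hexp0 : expo ℓ e ≠ 0 := by
    unfold expo
    split_ifs
    · exact he0
    · exact Nat.mul_ne_zero he0 (pow_ne_zero 2 (NeZero.ne ℓ))
  haveI : NeZero (expo ℓ e) := ⟨hexp0⟩
  have hL : jAtFam (N * ℓ ^ 2) (rIdx N ℓ hℓ ⟨e, he⟩) z = jAt (expo ℓ e) z := rfl
  have hR : jAtFam (N * ℓ) ⟨e, he⟩ (δ z) = jAt e (δ z) := rfl
  rw [hL, hR]
  by_cases h : ℓ ∣ e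
  · obtain ⟨d, hd⟩ := h
    have hd0 : d ≠ 0 := fun h0 => he0 (by rw [hd, h0, mul_zero])
    haveI : NeZero d := ⟨hd0⟩
    have hdN : d ∣ N := by
      have : ℓ * d ∣ ℓ * N := by rw [← hd, mul_comm ℓ N]; exact hedvd
      exact (Nat.mul_dvd_mul_iff_left hℓ.pos).mp this
    haveI : NeZero (d * ℓ) := ⟨Nat.mul_ne_zero hd0 (NeZero.ne ℓ)⟩
    haveI : NeZero (d * ℓ ^ 2) := ⟨Nat.mul_ne_zero hd0 (pow_ne_zero 2 (NeZero.ne ℓ))⟩
    have h2 := (hδ d hdN z).2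
    have hexp : expo ℓ e = d * ℓ := by rw [expo_of_dvd ℓ ⟨d, hd⟩, hd, mul_comm]
    have hcomm : e = d * ℓ := by rw [hd, mul_comm]
    rw [exo_jAt_congr hexp z, exo_jAt_congr hcomm (δ z)]
    exact h2.symm
  · have heN : e ∣ N := exo_dvd_of_not_dvd hℓ hedvd h
    haveI : NeZero (e * ℓ) := ⟨Nat.mul_ne_zero he0 (NeZero.ne ℓ)⟩
    haveI : NeZero (e * ℓ ^ 2) := ⟨Nat.mul_ne_zero he0 (pow_ne_zero 2 (NeZero.ne ℓ))⟩
    have h1 := (hδ e heN z).1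
    have hexp : expo ℓ e = e * ℓ ^ 2 := expo_of_not_dvd ℓ h
    rw [exo_jAt_congr hexp z]
    exact h1.symm

/-- The formal relations among the `j(q^e)`, `e ∣ N ℓ`, are exactly the relations among the
`j(q^{r e})`. -/
theorem aeval_rIdx_eq_zero_iff (N ℓ : ℕ) [NeZero N] [NeZero ℓ] (hℓ : ℓ.Prime) (hℓN : ¬ ℓ ∣ N)
    (P : MvPolynomial ↥(N * ℓ).divisors Qb) :
    MvPolynomial.aeval (JFam (N * ℓ ^ 2) ∘ rIdx N ℓ hℓ) P = 0 ↔
      MvPolynomial.aeval (JFam (N * ℓ)) P = 0 := by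
  obtain ⟨δ, hδs, hδ⟩ := exists_delta_jAtFam N ℓ hℓ hℓN
  have h1 : MvPolynomial.aeval (JFam (N * ℓ ^ 2) ∘ rIdx N ℓ hℓ) P
      = MvPolynomial.aeval (JFam (N * ℓ ^ 2)) (MvPolynomial.rename (rIdx N ℓ hℓ) P) :=
    (MvPolynomial.aeval_rename (rIdx N ℓ hℓ) (JFam (N * ℓ ^ 2)) P).symm
  have h2 : MvPolynomial.aeval (jAtFam (N * ℓ ^ 2)) (MvPolynomial.rename (rIdx N ℓ hℓ) P)
      = fun z => (MvPolynomial.aeval (jAtFam (N * ℓ)) P) (δ z) := by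
    rw [MvPolynomial.aeval_rename]
    funext z
    have e1 := exo_aeval_fun_apply (jAtFam (N * ℓ ^ 2) ∘ rIdx N ℓ hℓ) P z
    have e2 := exo_aeval_fun_apply (jAtFam (N * ℓ)) P (δ z)
    have e3 : (fun i => (jAtFam (N * ℓ ^ 2) ∘ rIdx N ℓ hℓ) i z)
        = (fun i => jAtFam (N * ℓ) i (δ z)) := funext fun e => hδ e z
    exact e1.trans ((congrArg (fun f => MvPolynomial.aeval f P) e3).trans e2.symm)
  rw [h1, bridge_iff (N * ℓ ^ 2), h2, bridge_iff (N * ℓ)]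
  constructor
  · intro h
    funext w
    obtain ⟨z, rfl⟩ := hδs w
    exact congrFun h z
  · intro h
    funext z
    rw [h]
    rfl

/-! ### (W2) the exotic embedding -/

theorem exo_coeffEmb_qExpand (n : ℕ) [NeZero n] (x : LaurentSeries ℚ) :
    coeffEmb Qb (qExpand ℚ n x) = qExpand Qb n (coeffEmb Qb x) :=
  ModularCurve.coeffMap_qExpand _ n x

theorem exo_JFam_mk (M n : ℕ) (hn : n ∈ M.divisors) [NeZero n] :
    JFam M ⟨n, hn⟩ = coeffEmb Qb (qExpand ℚ n jq) := rfl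

/-- `qExpand k` of a generator is a generator. -/
theorem exo_qExpand_JFam (M n k : ℕ) (hn : n ∈ M.divisors) [NeZero k] [NeZero n]
    [NeZero (k * n)] :
    qExpand Qb k (JFam M ⟨n, hn⟩) = coeffEmb Qb (qExpand ℚ (k * n) jq) := by
  rw [exo_JFam_mk, ← exo_coeffEmb_qExpand, qExpand_qExpand]

/-- **(W2)** The exotic embedding `E_∞ : F̄_{Nℓ} → ℚ̄((q))`: it is the identity on `β(F̄_N)` and
is `f(q) ↦ f(q^{ℓ²})` on `α(F̄_N)`; i.e. `j(q^{dℓ}) ↦ j(q^{dℓ})`, `j(q^d) ↦ j(q^{dℓ²})`, `d ∣ N`. -/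
theorem exists_exoticEmb (N ℓ : ℕ) [NeZero N] [NeZero ℓ] (hℓ : ℓ.Prime) (hℓN : ¬ ℓ ∣ N) :
    ∃ E : ↥(modularFunctionFieldBar (N * ℓ)) →ₐ[Qb] LaurentSeries Qb,
      (∀ x : ↥(modularFunctionFieldBar N),
        E (heckeBetaBar Qb N ℓ x) = qExpand Qb ℓ (x : LaurentSeries Qb)) ∧
      (∀ x : ↥(modularFunctionFieldBar N),
        E (heckeAlphaBar Qb N ℓ x) = qExpand Qb ℓ (qExpand Qb ℓ (x : LaurentSeries Qb))) := by
  haveI hℓ2 : NeZero (ℓ ^ 2) := ⟨pow_ne_zero 2 (NeZero.ne ℓ)⟩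
  obtain ⟨E, -, hE⟩ := exists_algHom_of_eq_zero_iff (N := N * ℓ)
    (MvPolynomial.aeval (JFam (N * ℓ ^ 2) ∘ rIdx N ℓ hℓ))
    (aeval_rIdx_eq_zero_iff N ℓ hℓ hℓN)
  have hE' : ∀ e : ↥(N * ℓ).divisors,
      E (genFam (N * ℓ) e) = JFam (N * ℓ ^ 2) (rIdx N ℓ hℓ e) := by
    intro e
    rw [hE e, MvPolynomial.aeval_X]
    rfl
  refine ⟨E, ?_, ?_⟩
  · -- on `β(F̄_N)`
    have hhom : E.comp (heckeBetaBar Qb N ℓ)
        = (qExpandAlgHomC Qb ℓ).comp (modularFunctionFieldBar N).val := by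
      apply algHom_ext_genFam
      intro d
      obtain ⟨d, hd⟩ := d
      have hd0 : d ≠ 0 := (Nat.pos_of_mem_divisors hd).ne'
      haveI : NeZero d := ⟨hd0⟩
      haveI : NeZero (ℓ * d) := ⟨Nat.mul_ne_zero (NeZero.ne ℓ) hd0⟩
      have hdvd : ℓ * d ∣ N * ℓ := by
        rw [mul_comm ℓ d]
        exact Nat.mul_dvd_mul_right (Nat.dvd_of_mem_divisors hd) ℓ
      have hmem : ℓ * d ∈ (N * ℓ).divisors :=
        Nat.mem_divisors.mpr ⟨hdvd, Nat.mul_ne_zero (NeZero.ne N) (NeZero.ne ℓ)⟩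
      have hβ : heckeBetaBar Qb N ℓ (genFam N ⟨d, hd⟩) = genFam (N * ℓ) ⟨ℓ * d, hmem⟩ := by
        apply Subtype.ext
        rw [coe_heckeBetaBar, coe_genFam, coe_genFam, exo_qExpand_JFam, exo_JFam_mk]
      have hexp : expo ℓ (ℓ * d) = ℓ * d := expo_of_dvd ℓ (dvd_mul_right ℓ d)
      haveI : NeZero (expo ℓ (ℓ * d)) := ⟨by rw [hexp]; exact Nat.mul_ne_zero (NeZero.ne ℓ) hd0⟩
      have hr : JFam (N * ℓ ^ 2) (rIdx N ℓ hℓ ⟨ℓ * d, hmem⟩)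
          = coeffEmb Qb (qExpand ℚ (ℓ * d) jq) := by
        show coeffEmb Qb (qExpand ℚ (expo ℓ (ℓ * d)) jq) = _
        rw [qExpand_congr hexp]
      show E (heckeBetaBar Qb N ℓ (genFam N ⟨d, hd⟩))
        = qExpand Qb ℓ ((genFam N ⟨d, hd⟩ : ↥(modularFunctionFieldBar N)) : LaurentSeries Qb)
      rw [hβ, hE', hr, coe_genFam, exo_qExpand_JFam]
    intro x
    exact congrArg (fun f => f x) hhom
  · -- on `α(F̄_N)`
    have hhom : E.comp (heckeAlphaBar Qb N ℓ)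
        = ((qExpandAlgHomC Qb ℓ).comp (qExpandAlgHomC Qb ℓ)).comp
            (modularFunctionFieldBar N).val := by
      apply algHom_ext_genFam
      intro d
      obtain ⟨d, hd⟩ := d
      have hd0 : d ≠ 0 := (Nat.pos_of_mem_divisors hd).ne'
      have hdN : d ∣ N := Nat.dvd_of_mem_divisors hd
      haveI : NeZero d := ⟨hd0⟩
      haveI : NeZero (ℓ * d) := ⟨Nat.mul_ne_zero (NeZero.ne ℓ) hd0⟩
      haveI : NeZero (ℓ * (ℓ * d)) :=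
        ⟨Nat.mul_ne_zero (NeZero.ne ℓ) (Nat.mul_ne_zero (NeZero.ne ℓ) hd0)⟩
      have hmem : d ∈ (N * ℓ).divisors :=
        Nat.mem_divisors.mpr ⟨hdN.trans (dvd_mul_right N ℓ),
          Nat.mul_ne_zero (NeZero.ne N) (NeZero.ne ℓ)⟩
      have hα : heckeAlphaBar Qb N ℓ (genFam N ⟨d, hd⟩) = genFam (N * ℓ) ⟨d, hmem⟩ := by
        apply Subtype.ext
        rw [coe_heckeAlphaBar, coe_genFam, coe_genFam]
        rfl
      have hnd : ¬ ℓ ∣ d := fun h => hℓN (h.trans hdN)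
      have hexp : expo ℓ d = ℓ * (ℓ * d) := by rw [expo_of_not_dvd ℓ hnd]; ring
      haveI : NeZero (expo ℓ d) := ⟨by
        rw [hexp]
        exact Nat.mul_ne_zero (NeZero.ne ℓ) (Nat.mul_ne_zero (NeZero.ne ℓ) hd0)⟩
      have hr : JFam (N * ℓ ^ 2) (rIdx N ℓ hℓ ⟨d, hmem⟩)
          = coeffEmb Qb (qExpand ℚ (ℓ * (ℓ * d)) jq) := by
        show coeffEmb Qb (qExpand ℚ (expo ℓ d) jq) = _
        rw [qExpand_congr hexp]
      show E (heckeAlphaBar Qb N ℓ (genFam N ⟨d, hd⟩))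
        = qExpand Qb ℓ (qExpand Qb ℓ
            ((genFam N ⟨d, hd⟩ : ↥(modularFunctionFieldBar N)) : LaurentSeries Qb))
      rw [hα, hE', hr, coe_genFam, exo_qExpand_JFam, ← exo_coeffEmb_qExpand, qExpand_qExpand]
    intro x
    exact congrArg (fun f => f x) hhom

/-- The chosen exotic embedding `E_∞`. -/
noncomputable def exoticEmb (N ℓ : ℕ) [NeZero N] [NeZero ℓ] (hℓ : ℓ.Prime) (hℓN : ¬ ℓ ∣ N) :
    ↥(modularFunctionFieldBar (N * ℓ)) →ₐ[Qb] LaurentSeries Qb :=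
  (exists_exoticEmb N ℓ hℓ hℓN).choose

theorem exoticEmb_beta (N ℓ : ℕ) [NeZero N] [NeZero ℓ] (hℓ : ℓ.Prime) (hℓN : ¬ ℓ ∣ N)
    (x : ↥(modularFunctionFieldBar N)) :
    exoticEmb N ℓ hℓ hℓN (heckeBetaBar Qb N ℓ x) = qExpand Qb ℓ (x : LaurentSeries Qb) :=
  (exists_exoticEmb N ℓ hℓ hℓN).choose_spec.1 x

theorem exoticEmb_alpha (N ℓ : ℕ) [NeZero N] [NeZero ℓ] (hℓ : ℓ.Prime) (hℓN : ¬ ℓ ∣ N)
    (x : ↥(modularFunctionFieldBar N)) :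
    exoticEmb N ℓ hℓ hℓN (heckeAlphaBar Qb N ℓ x)
      = qExpand Qb ℓ (qExpand Qb ℓ (x : LaurentSeries Qb)) :=
  (exists_exoticEmb N ℓ hℓ hℓN).choose_spec.2 x

/-- `E_∞(α x) = x(q^{ℓ²})`, with the exponent written as `ℓ ^ 2`. -/
theorem exoticEmb_alpha_sq (N ℓ : ℕ) [NeZero N] [NeZero ℓ] (hℓ : ℓ.Prime) (hℓN : ¬ ℓ ∣ N)
    (x : ↥(modularFunctionFieldBar N)) :
    exoticEmb N ℓ hℓ hℓN (heckeAlphaBar Qb N ℓ x) = qExpand Qb (ℓ ^ 2) (x : LaurentSeries Qb) := by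
  rw [exoticEmb_alpha, qExpand_qExpand]
  exact qExpand_congr (sq ℓ).symm _

end Fermat.Agent.S37.W
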