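/-
S37 block [W], part (W3, norm formula) (helper130).

For a prime `ℓ ∤ N`, `α, β : F̄_N → F̄_{Nℓ}` the frozen `heckeAlphaBar`, `heckeBetaBar`, the field
`F̄_{Nℓ}` has degree `ℓ + 1` over `β(F̄_N)` (`W/Degree.lean`), and its `ℓ + 1` embeddings into
`ℚ̄((q))` over `β(F̄_N)` are the `ℓ` rotations `q ↦ ζ^i q` (`ζ` a primitive `ℓ`-th root of unity)
and the exotic embedding `E_∞` of `W/Exotic.lean`.  Hence

* `norm_eq_prod_of_ringHoms` (generic): the norm of a finite separable extension is the product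
  over any complete family of distinct embeddings;
* `qExpand_norm_beta`:  `(N_β z)(q^ℓ) = E_∞(z) · ∏_{i<ℓ} z(ζ^i q)` for all `z ∈ F̄_{Nℓ}`;
* `qExpand_norm_beta_alpha`:  `(N_β (α y))(q^ℓ) = y(q^{ℓ²}) · ∏_{i<ℓ} y(ζ^i q)` for `y ∈ F̄_N`,
  in the shape consumed by `S37.KC.kronecker_of_qExpand_eq'`.
-/
import Mathlib
import Fermat.Agent.S24.Rot
import Fermat.Agent.S37.W.Exotic
import Fermat.Agent.S37.W.Degree

set_option autoImplicit false

namespace Fermat.Agent.S37.W

open ModularCurve AlgebraicCurve HahnSeries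
open Fermat.Agent.S24

local notation "Qb" => AlgebraicClosure ℚ

/-- **Norm = product over a complete explicit family of embeddings.**  `L / K` finite separable,
`f i : L → M` ring embeddings into a field `M`, all restricting to the same `ι₀` on `K`, pairwise
distinct, and as many as the degree.  Then `ι₀ (N_{L/K} x) = ∏ i, f i x`. -/
theorem norm_eq_prod_of_ringHoms {K L : Type*} [Field K] [Field L] [Algebra K L]
    [FiniteDimensional K L] [Algebra.IsSeparable K L]
    {M : Type*} [Field M] (ι₀ : K →+* M) {I : Type*} [Fintype I] (f : I → (L →+* M))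
    (hf : ∀ i x, f i (algebraMap K L x) = ι₀ x) (hinj : Function.Injective f)
    (hcard : Fintype.card I = Module.finrank K L) (x : L) :
    ι₀ (Algebra.norm K x) = ∏ i, f i x := by
  classical
  let Ω := AlgebraicClosure M
  letI : Algebra K Ω := ((algebraMap M Ω).comp ι₀).toAlgebra
  let σ : I → (L →ₐ[K] Ω) := fun i =>
    { toRingHom := (algebraMap M Ω).comp (f i)
      commutes' := fun a => by
        show algebraMap M Ω (f i (algebraMap K L a)) = algebraMap M Ω (ι₀ a)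
        rw [hf] }
  have hσ : ∀ i z, σ i z = algebraMap M Ω (f i z) := fun i z => rfl
  have hσinj : Function.Injective σ := by
    intro i i' h
    apply hinj
    ext z
    have := congrArg (fun τ : L →ₐ[K] Ω => τ z) h
    exact (algebraMap M Ω).injective this
  have hcard' : Fintype.card I = Fintype.card (L →ₐ[K] Ω) := by
    rw [hcard, AlgHom.card K L Ω]
  have hbij : Function.Bijective σ :=
    (Fintype.bijective_iff_injective_and_card σ).mpr ⟨hσinj, hcard'⟩
  have h1 := Algebra.norm_eq_prod_embeddings K Ω x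
  have h2 : ∏ τ : L →ₐ[K] Ω, τ x = ∏ i, σ i x :=
    (Function.Bijective.prod_comp hbij (fun τ : L →ₐ[K] Ω => τ x)).symm
  have h3 : algebraMap K Ω (Algebra.norm K x) = algebraMap M Ω (ι₀ (Algebra.norm K x)) := rfl
  have h4 : ∏ i, σ i x = algebraMap M Ω (∏ i, f i x) := by
    rw [map_prod]
    exact Finset.prod_congr rfl fun i _ => hσ i x
  apply (algebraMap M Ω).injective
  rw [← h3, h1, h2, h4]

/-- A rotation by an `ℓ`-th root of unity fixes `ℚ̄((q^ℓ))`. -/
theorem rotHom_qExpand (ℓ : ℕ) [NeZero ℓ] (ζ : Qb) (hζ : ζ ≠ 0) (h1 : ζ ^ ℓ = 1)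
    (x : LaurentSeries Qb) : rotHom ζ hζ (qExpand Qb ℓ x) = qExpand Qb ℓ x := by
  ext n
  rw [rotHom_coeff]
  by_cases hn : (ℓ : ℤ) ∣ n
  · obtain ⟨m, rfl⟩ := hn
    rw [zpow_mul, zpow_natCast, h1, one_zpow, one_mul]
  · rw [qExpand_coeff_of_not_dvd ℓ x hn, mul_zero]

theorem coeff_coeffEmb_jq_neg_one : (coeffEmb Qb jq).coeff (-1 : ℤ) = 1 := by
  rw [coeffEmb_coeff, coeff_jq_neg_one, map_one]

/-- **(W3, norm formula, general element)** For `z ∈ F̄_{Nℓ}`:
`(N_{F̄_{Nℓ}/β F̄_N} z)(q^ℓ) = E_∞(z) · ∏_{i<ℓ} z(ζ^i q)`. -/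
theorem qExpand_norm_beta (N ℓ : ℕ) [NeZero N] [NeZero ℓ] (hℓ : ℓ.Prime) (hℓN : ¬ ℓ ∣ N)
    (ζ : Qb) (hζ : IsPrimitiveRoot ζ ℓ) (hz : ∀ i : ℕ, ζ ^ i ≠ 0)
    (z : ↥(modularFunctionFieldBar (N * ℓ))) :
    letI := algebraAlong (heckeBetaBar Qb N ℓ)
    qExpand Qb ℓ
        ((Algebra.norm ↥(modularFunctionFieldBar N) z : ↥(modularFunctionFieldBar N)) :
          LaurentSeries Qb)
      = exoticEmb N ℓ hℓ hℓN z *
          ∏ i ∈ Finset.range ℓ, rotHom (ζ ^ i) (hz i) (z : LaurentSeries Qb) := by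
  letI := algebraAlong (heckeBetaBar Qb N ℓ)
  have hdeg : Module.finrank ↥(modularFunctionFieldBar N) ↥(modularFunctionFieldBar (N * ℓ))
      = ℓ + 1 := finrankAlong_heckeBetaBar N ℓ hℓ hℓN
  haveI : FiniteDimensional ↥(modularFunctionFieldBar N) ↥(modularFunctionFieldBar (N * ℓ)) :=
    Module.finite_of_finrank_pos (by rw [hdeg]; omega)
  -- the base embedding and the family
  let ι₀ : ↥(modularFunctionFieldBar N) →+* LaurentSeries Qb :=
    (qExpand Qb ℓ).comp (modularFunctionFieldBar N).val.toRingHom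
  let f : Option (Fin ℓ) → (↥(modularFunctionFieldBar (N * ℓ)) →+* LaurentSeries Qb) := fun o =>
    match o with
    | none => (exoticEmb N ℓ hℓ hℓN).toRingHom
    | some i => ((rotHom (ζ ^ (i : ℕ)) (hz i)).toRingHom).comp
        (modularFunctionFieldBar (N * ℓ)).val.toRingHom
  have hf : ∀ o x, f o (algebraMap ↥(modularFunctionFieldBar N)
      ↥(modularFunctionFieldBar (N * ℓ)) x) = ι₀ x := by
    intro o x
    have hx : algebraMap ↥(modularFunctionFieldBar N) ↥(modularFunctionFieldBar (N * ℓ)) x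
        = heckeBetaBar Qb N ℓ x := rfl
    rw [hx]
    cases o with
    | none => exact exoticEmb_beta N ℓ hℓ hℓN x
    | some i =>
      show rotHom (ζ ^ (i : ℕ)) (hz i)
        ((heckeBetaBar Qb N ℓ x : ↥(modularFunctionFieldBar (N * ℓ))) : LaurentSeries Qb)
          = qExpand Qb ℓ (x : LaurentSeries Qb)
      rw [coe_heckeBetaBar]
      exact rotHom_qExpand ℓ _ _ (by rw [← pow_mul, mul_comm, pow_mul, hζ.pow_eq_one, one_pow]) _
  -- distinctness, tested on the `q⁻¹`-coefficient of `j`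
  have hℓ1 : ¬ (ℓ : ℤ) ∣ (-1 : ℤ) := by
    intro h
    have h1 : (ℓ : ℤ) ∣ 1 := (dvd_neg).mp h
    have h2 : ℓ ∣ 1 := Int.natCast_dvd_natCast.mp (by simpa using h1)
    exact hℓ.one_lt.ne' (Nat.dvd_one.mp h2)
  have hnone : (f none (heckeAlphaBar Qb N ℓ (jF N))).coeff (-1 : ℤ) = 0 := by
    show (exoticEmb N ℓ hℓ hℓN (heckeAlphaBar Qb N ℓ (jF N))).coeff (-1 : ℤ) = 0
    rw [exoticEmb_alpha]
    exact qExpand_coeff_of_not_dvd ℓ _ hℓ1
  have hsome : ∀ i : Fin ℓ, (f (some i) (heckeAlphaBar Qb N ℓ (jF N))).coeff (-1 : ℤ)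
      = (ζ ^ (i : ℕ)) ^ (-1 : ℤ) := by
    intro i
    show (rotHom (ζ ^ (i : ℕ)) (hz i)
      ((heckeAlphaBar Qb N ℓ (jF N) : ↥(modularFunctionFieldBar (N * ℓ))) :
        LaurentSeries Qb)).coeff (-1 : ℤ) = _
    rw [rotHom_coeff, coe_heckeAlphaBar, coe_jF, coeff_coeffEmb_jq_neg_one, mul_one]
  have hinj : Function.Injective f := by
    intro o o' h
    have hc := congrArg (fun g : ↥(modularFunctionFieldBar (N * ℓ)) →+* LaurentSeries Qb =>
      (g (heckeAlphaBar Qb N ℓ (jF N))).coeff (-1 : ℤ)) h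
    cases o with
    | none =>
      cases o' with
      | none => rfl
      | some i' =>
        rw [hnone, hsome] at hc
        exact absurd hc.symm (zpow_ne_zero _ (hz i'))
    | some i =>
      cases o' with
      | none =>
        rw [hnone, hsome] at hc
        exact absurd hc (zpow_ne_zero _ (hz i))
      | some i' =>
        rw [hsome, hsome] at hc
        have h2 : ζ ^ (i : ℕ) = ζ ^ (i' : ℕ) := by
          have := congrArg (fun t : Qb => t⁻¹) hc
          simpa [zpow_neg] using this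
        have h3 : (i : ℕ) = (i' : ℕ) := hζ.pow_inj i.2 i'.2 h2
        exact congrArg some (Fin.ext h3)
  have hcard : Fintype.card (Option (Fin ℓ))
      = Module.finrank ↥(modularFunctionFieldBar N) ↥(modularFunctionFieldBar (N * ℓ)) := by
    rw [hdeg, Fintype.card_option, Fintype.card_fin]
  have key := norm_eq_prod_of_ringHoms ι₀ f hf hinj hcard z
  rw [Fintype.prod_option] at key
  have hrange : ∏ i : Fin ℓ, f (some i) z
      = ∏ i ∈ Finset.range ℓ, rotHom (ζ ^ i) (hz i) (z : LaurentSeries Qb) :=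
    Fin.prod_univ_eq_prod_range
      (fun i => rotHom (ζ ^ i) (hz i) (z : LaurentSeries Qb)) ℓ
  rw [hrange] at key
  exact key

/-- **(W3, norm formula)** For `y ∈ F̄_N`:
`(N_{F̄_{Nℓ}/β F̄_N}(α y))(q^ℓ) = y(q^{ℓ²}) · ∏_{i<ℓ} y(ζ^i q)`. -/
theorem qExpand_norm_beta_alpha (N ℓ : ℕ) [NeZero N] [NeZero ℓ] (hℓ : ℓ.Prime) (hℓN : ¬ ℓ ∣ N)
    (ζ : Qb) (hζ : IsPrimitiveRoot ζ ℓ) (hz : ∀ i : ℕ, ζ ^ i ≠ 0)
    (y : ↥(modularFunctionFieldBar N)) :
    letI := algebraAlong (heckeBetaBar Qb N ℓ)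
    qExpand Qb ℓ
        ((Algebra.norm ↥(modularFunctionFieldBar N) (heckeAlphaBar Qb N ℓ y) :
          ↥(modularFunctionFieldBar N)) : LaurentSeries Qb)
      = qExpand Qb ℓ (qExpand Qb ℓ (y : LaurentSeries Qb)) *
          ∏ i ∈ Finset.range ℓ, rotHom (ζ ^ i) (hz i) (y : LaurentSeries Qb) := by
  have h := qExpand_norm_beta N ℓ hℓ hℓN ζ hζ hz (heckeAlphaBar Qb N ℓ y)
  rw [exoticEmb_alpha] at h
  exact h

end Fermat.Agent.S37.W
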