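import Mathlib
import Fermat.Agent.S37.W.ALHecke
import Fermat.Agent.S24.Rot
import Fermat.Agent.S37.W.Norm

/-!
# S37 block [W]: transport of the norm along the Atkin–Lehner involution

`N_α (β y) = N_β (α y)` in `F̄_N`, where `N_α`, `N_β` are the norms of `F̄_{Nℓ}` over `F̄_N` for the
two algebra structures `algebraAlong α`, `algebraAlong β` (`α = heckeAlphaBar`, `β = heckeBetaBar`):
the Atkin–Lehner involution `w_ℓ` is an isomorphism `(F̄_{Nℓ}, α) ≃ (F̄_{Nℓ}, β)` of `F̄_N`-algebras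
with `w (β y) = α y`.
-/

set_option autoImplicit false

namespace Fermat.Agent.S37.W

open ModularCurve AlgebraicCurve
open Fermat.Agent.S24

variable (N ℓ : ℕ) [NeZero N] [NeZero ℓ]

/-- General form: `N_α z = N_β (w z)` for the Atkin–Lehner involution `w`. -/
theorem exists_atkinLehner_norm (hℓ : ℓ.Prime) (hℓN : ¬ ℓ ∣ N) :
    ∃ w : ↥(modularFunctionFieldBar (N * ℓ)) ≃ₐ[AlgebraicClosure ℚ]
        ↥(modularFunctionFieldBar (N * ℓ)),
      (∀ x : ↥(modularFunctionFieldBar N),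
        w (heckeAlphaBar (AlgebraicClosure ℚ) N ℓ x) = heckeBetaBar (AlgebraicClosure ℚ) N ℓ x) ∧
      (∀ x : ↥(modularFunctionFieldBar N),
        w (heckeBetaBar (AlgebraicClosure ℚ) N ℓ x) = heckeAlphaBar (AlgebraicClosure ℚ) N ℓ x) ∧
      ∀ z : ↥(modularFunctionFieldBar (N * ℓ)),
        (letI := algebraAlong (heckeAlphaBar (AlgebraicClosure ℚ) N ℓ);
          Algebra.norm (↥(modularFunctionFieldBar N)) z)
        = (letI := algebraAlong (heckeBetaBar (AlgebraicClosure ℚ) N ℓ);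
          Algebra.norm (↥(modularFunctionFieldBar N)) (w z)) := by
  obtain ⟨w, -, -, -, hwα, hwβ⟩ := exists_atkinLehner N ℓ hℓ hℓN
  refine ⟨w, hwα, hwβ, fun z => ?_⟩
  have h := @Algebra.norm_eq_of_equiv_equiv (↥(modularFunctionFieldBar N))
    (↥(modularFunctionFieldBar (N * ℓ))) (↥(modularFunctionFieldBar N))
    (↥(modularFunctionFieldBar (N * ℓ))) _ _ _ _
    (algebraAlong (heckeAlphaBar (AlgebraicClosure ℚ) N ℓ))
    (algebraAlong (heckeBetaBar (AlgebraicClosure ℚ) N ℓ))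
    (RingEquiv.refl (↥(modularFunctionFieldBar N))) w.toRingEquiv
    (RingHom.ext fun x => (hwα x).symm) z
  exact h

/-- **(4)** `N_α (β y) = N_β (α y)`. -/
theorem norm_alpha_beta_eq_norm_beta_alpha (hℓ : ℓ.Prime) (hℓN : ¬ ℓ ∣ N)
    (y : ↥(modularFunctionFieldBar N)) :
    (letI := algebraAlong (heckeAlphaBar (AlgebraicClosure ℚ) N ℓ);
      Algebra.norm (↥(modularFunctionFieldBar N)) (heckeBetaBar (AlgebraicClosure ℚ) N ℓ y))
    = (letI := algebraAlong (heckeBetaBar (AlgebraicClosure ℚ) N ℓ);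
      Algebra.norm (↥(modularFunctionFieldBar N)) (heckeAlphaBar (AlgebraicClosure ℚ) N ℓ y)) := by
  obtain ⟨w, -, hwβ, hnorm⟩ := exists_atkinLehner_norm N ℓ hℓ hℓN
  rw [hnorm, hwβ]

/-- `N_β (α y) = N_α (β y)`, and more generally `N_β z = N_α (w z)`. -/
theorem exists_atkinLehner_norm' (hℓ : ℓ.Prime) (hℓN : ¬ ℓ ∣ N) :
    ∃ w : ↥(modularFunctionFieldBar (N * ℓ)) ≃ₐ[AlgebraicClosure ℚ]
        ↥(modularFunctionFieldBar (N * ℓ)),
      (∀ x : ↥(modularFunctionFieldBar N),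
        w (heckeAlphaBar (AlgebraicClosure ℚ) N ℓ x) = heckeBetaBar (AlgebraicClosure ℚ) N ℓ x) ∧
      (∀ x : ↥(modularFunctionFieldBar N),
        w (heckeBetaBar (AlgebraicClosure ℚ) N ℓ x) = heckeAlphaBar (AlgebraicClosure ℚ) N ℓ x) ∧
      ∀ z : ↥(modularFunctionFieldBar (N * ℓ)),
        (letI := algebraAlong (heckeBetaBar (AlgebraicClosure ℚ) N ℓ);
          Algebra.norm (↥(modularFunctionFieldBar N)) z)
        = (letI := algebraAlong (heckeAlphaBar (AlgebraicClosure ℚ) N ℓ);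
          Algebra.norm (↥(modularFunctionFieldBar N)) (w z)) := by
  obtain ⟨w, hww, -, -, hwα, hwβ⟩ := exists_atkinLehner N ℓ hℓ hℓN
  refine ⟨w, hwα, hwβ, fun z => ?_⟩
  have h := @Algebra.norm_eq_of_equiv_equiv (↥(modularFunctionFieldBar N))
    (↥(modularFunctionFieldBar (N * ℓ))) (↥(modularFunctionFieldBar N))
    (↥(modularFunctionFieldBar (N * ℓ))) _ _ _ _
    (algebraAlong (heckeBetaBar (AlgebraicClosure ℚ) N ℓ))
    (algebraAlong (heckeAlphaBar (AlgebraicClosure ℚ) N ℓ))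
    (RingEquiv.refl (↥(modularFunctionFieldBar N))) w.toRingEquiv
    (RingHom.ext fun x => (hwβ x).symm) z
  exact h

/-- **(5), conditional form.** The `q`-expansion of `N_α (β y)` from the `q`-expansion of
`N_β (α y)` (the latter is `qExpand_norm_beta_alpha` of `W/Norm.lean`). -/
theorem qExpand_norm_alpha_beta_of (hℓ : ℓ.Prime) (hℓN : ¬ ℓ ∣ N) (ζ : AlgebraicClosure ℚ)
    (hz : ∀ i : ℕ, ζ ^ i ≠ 0) (y : ↥(modularFunctionFieldBar N))
    (h : letI := algebraAlong (heckeBetaBar (AlgebraicClosure ℚ) N ℓ);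
      qExpand (AlgebraicClosure ℚ) ℓ
          ((Algebra.norm (↥(modularFunctionFieldBar N))
            (heckeAlphaBar (AlgebraicClosure ℚ) N ℓ y) : ↥(modularFunctionFieldBar N)) :
              LaurentSeries (AlgebraicClosure ℚ))
        = qExpand (AlgebraicClosure ℚ) ℓ
            (qExpand (AlgebraicClosure ℚ) ℓ (y : LaurentSeries (AlgebraicClosure ℚ)))
          * ∏ i ∈ Finset.range ℓ, rotHom (ζ ^ i) (hz i) (y : LaurentSeries (AlgebraicClosure ℚ))) :
    letI := algebraAlong (heckeAlphaBar (AlgebraicClosure ℚ) N ℓ);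
    qExpand (AlgebraicClosure ℚ) ℓ
        ((Algebra.norm (↥(modularFunctionFieldBar N))
          (heckeBetaBar (AlgebraicClosure ℚ) N ℓ y) : ↥(modularFunctionFieldBar N)) :
            LaurentSeries (AlgebraicClosure ℚ))
      = qExpand (AlgebraicClosure ℚ) ℓ
          (qExpand (AlgebraicClosure ℚ) ℓ (y : LaurentSeries (AlgebraicClosure ℚ)))
        * ∏ i ∈ Finset.range ℓ, rotHom (ζ ^ i) (hz i) (y : LaurentSeries (AlgebraicClosure ℚ)) := by
  rw [norm_alpha_beta_eq_norm_beta_alpha N ℓ hℓ hℓN y]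
  exact h

/-- **(5)** The `q`-expansion of `N_α (β y)`:
`(N_{F̄_{Nℓ}/α F̄_N}(β y))(q^ℓ) = y(q^{ℓ²}) · ∏_{i<ℓ} y(ζ^i q)`. -/
theorem qExpand_norm_alpha_beta (hℓ : ℓ.Prime) (hℓN : ¬ ℓ ∣ N) (ζ : AlgebraicClosure ℚ)
    (hζ : IsPrimitiveRoot ζ ℓ) (hz : ∀ i : ℕ, ζ ^ i ≠ 0) (y : ↥(modularFunctionFieldBar N)) :
    letI := algebraAlong (heckeAlphaBar (AlgebraicClosure ℚ) N ℓ);
    qExpand (AlgebraicClosure ℚ) ℓ
        ((Algebra.norm (↥(modularFunctionFieldBar N))
          (heckeBetaBar (AlgebraicClosure ℚ) N ℓ y) : ↥(modularFunctionFieldBar N)) :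
            LaurentSeries (AlgebraicClosure ℚ))
      = qExpand (AlgebraicClosure ℚ) ℓ
          (qExpand (AlgebraicClosure ℚ) ℓ (y : LaurentSeries (AlgebraicClosure ℚ)))
        * ∏ i ∈ Finset.range ℓ, rotHom (ζ ^ i) (hz i) (y : LaurentSeries (AlgebraicClosure ℚ)) :=
  qExpand_norm_alpha_beta_of N ℓ hℓ hℓN ζ hz y (qExpand_norm_beta_alpha N ℓ hℓ hℓN ζ hζ hz y)

end Fermat.Agent.S37.W
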