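/-
S37 block [W], generic leaf (helper129): the norm through `n` distinct embeddings into an
arbitrary field `Ω` (not necessarily algebraically closed, e.g. `ℚ̄((q))`).
* `norm_eq_prod_of_injective`, `norm_eq_prod_range_of_injOn`, `norm_eq_mul_prod_range`;
* `norm_along_eq_mul_prod_range`: instance-free consumer form in the prelude's `algebraAlong`
  vocabulary (ring homs restricting to a base hom `b` along `φ`).
-/
import Mathlib
import Fermat.Prelude.Def_AlgebraicCurve_Correspondence

set_option autoImplicit false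

open AlgebraicCurve

namespace Fermat.Agent.S37.NormEmb

/-- **Norm through `n` distinct embeddings.** -/
theorem norm_eq_prod_of_injective {F E Ω : Type*} [Field F] [Field E] [Field Ω] [Algebra F E]
    [Algebra F Ω] [FiniteDimensional F E] [Algebra.IsSeparable F E] {ι : Type*} [Fintype ι]
    (σ : ι → (E →ₐ[F] Ω)) (hσ : Function.Injective σ)
    (hcard : Fintype.card ι = Module.finrank F E) (x : E) :
    algebraMap F Ω (Algebra.norm F x) = ∏ i, σ i x := by
  classical
  let τ : ι → (E →ₐ[F] AlgebraicClosure Ω) :=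
    fun i => (IsScalarTower.toAlgHom F Ω (AlgebraicClosure Ω)).comp (σ i)
  have hτ : Function.Injective τ := by
    intro i j hij
    apply hσ
    ext y
    have h := DFunLike.congr_fun hij y
    exact (algebraMap Ω (AlgebraicClosure Ω)).injective h
  have hbij : Function.Bijective τ :=
    (Fintype.bijective_iff_injective_and_card τ).2 ⟨hτ, by rw [hcard, AlgHom.card]⟩
  apply (algebraMap Ω (AlgebraicClosure Ω)).injective
  rw [← IsScalarTower.algebraMap_apply F Ω (AlgebraicClosure Ω),
    Algebra.norm_eq_prod_embeddings F (AlgebraicClosure Ω) x, map_prod]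
  exact (Fintype.prod_bijective τ hbij _ _ (fun i => rfl)).symm

/-- Variant over `Finset.range n`-indexed families. -/
theorem norm_eq_prod_range_of_injOn {F E Ω : Type*} [Field F] [Field E] [Field Ω] [Algebra F E]
    [Algebra F Ω] [FiniteDimensional F E] [Algebra.IsSeparable F E] (n : ℕ)
    (σ : ℕ → (E →ₐ[F] Ω)) (hσ : Set.InjOn σ (Finset.range n : Set ℕ))
    (hcard : n = Module.finrank F E) (x : E) :
    algebraMap F Ω (Algebra.norm F x) = ∏ i ∈ Finset.range n, σ i x := by
  have h := norm_eq_prod_of_injective (ι := Fin n) (fun i => σ i)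
    (fun i j hij => Fin.ext (hσ (by simp) (by simp) hij)) (by simpa using hcard) x
  rw [h, Finset.prod_range (fun i => σ i x)]

/-- Variant: `n` distinct embeddings `σ i` (`i < n`) and one more embedding `τ`, for an extension
of degree `n + 1`: `N(x) = τ x * ∏_{i<n} σ i x`. -/
theorem norm_eq_mul_prod_range {F E Ω : Type*} [Field F] [Field E] [Field Ω] [Algebra F E]
    [Algebra F Ω] [FiniteDimensional F E] [Algebra.IsSeparable F E] (n : ℕ)
    (σ : ℕ → (E →ₐ[F] Ω)) (τ : E →ₐ[F] Ω) (hσ : Set.InjOn σ (Finset.range n : Set ℕ))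
    (hτ : ∀ i ∈ Finset.range n, σ i ≠ τ) (hcard : n + 1 = Module.finrank F E) (x : E) :
    algebraMap F Ω (Algebra.norm F x) = τ x * ∏ i ∈ Finset.range n, σ i x := by
  let ρ : Option (Fin n) → (E →ₐ[F] Ω) := fun o => o.elim τ (fun i => σ i)
  have hρ : Function.Injective ρ := by
    rintro (_ | i) (_ | j) h
    · rfl
    · exact absurd h.symm (hτ j (by simp))
    · exact absurd h (hτ i (by simp))
    · exact congrArg some (Fin.ext (hσ (by simp) (by simp) h))
  have h := norm_eq_prod_of_injective ρ hρ (by simpa using hcard) x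
  rw [h, Fintype.prod_option, Finset.prod_range (fun i => σ i x)]
  rfl

/-- **Instance-free consumer form** (prelude `algebraAlong` vocabulary).  `φ : F →ₐ[K] F'` of
degree `finrankAlong K φ = n + 1` in characteristic zero, `b : F →+* Ω` a ring hom into a field,
`σ i` (`i < n`) and `τ` ring homs `F' →+* Ω` restricting to `b` along `φ`, pairwise distinct.
Then `b (N_φ x) = τ x * ∏_{i<n} σ i x`, where `N_φ` is the norm for the `F`-algebra structure
`algebraAlong φ` on `F'`. -/
theorem norm_along_eq_mul_prod_range {K F F' Ω : Type*} [Field K] [Field F] [Field F'] [Field Ω]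
    [Algebra K F] [Algebra K F'] [CharZero F] (φ : F →ₐ[K] F') (b : F →+* Ω) (n : ℕ)
    (σ : ℕ → (F' →+* Ω)) (τ : F' →+* Ω)
    (hσb : ∀ i ∈ Finset.range n, ∀ x, σ i (φ x) = b x) (hτb : ∀ x, τ (φ x) = b x)
    (hσ : Set.InjOn σ (Finset.range n : Set ℕ)) (hτ : ∀ i ∈ Finset.range n, σ i ≠ τ)
    (hcard : n + 1 = finrankAlong K φ) (x : F') :
    b (letI := algebraAlong φ; Algebra.norm F x) = τ x * ∏ i ∈ Finset.range n, σ i x := by
  letI := algebraAlong φ
  letI : Algebra F Ω := b.toAlgebra
  have hfin : FiniteDimensional F F' :=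
    Module.finite_of_finrank_pos (by
      have : Module.finrank F F' = n + 1 := hcard.symm
      omega)
  have hsep : Algebra.IsSeparable F F' := Algebra.IsAlgebraic.isSeparable_of_perfectField
  -- the embeddings as `F`-algebra homs (junk `τ` outside `range n`)
  let τ' : F' →ₐ[F] Ω := { τ with commutes' := fun y => hτb y }
  let σ' : ℕ → (F' →ₐ[F] Ω) := fun i =>
    if hi : i ∈ Finset.range n then { σ i with commutes' := fun y => hσb i hi y } else τ'
  have hσ'coe : ∀ i ∈ Finset.range n, ∀ y, σ' i y = σ i y := by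
    intro i hi y
    simp only [σ', dif_pos hi]
    rfl
  have h := norm_eq_mul_prod_range n σ' τ' ?_ ?_ hcard x
  · rw [show b (Algebra.norm F x) = algebraMap F Ω (Algebra.norm F x) from rfl, h]
    congr 1
    exact Finset.prod_congr rfl fun i hi => hσ'coe i hi x
  · intro i hi j hj hij
    refine hσ hi hj (RingHom.ext fun y => ?_)
    rw [← hσ'coe i hi y, ← hσ'coe j hj y, hij]
  · intro i hi hiτ
    refine hτ i hi (RingHom.ext fun y => ?_)
    rw [← hσ'coe i hi y, hiτ]
    rfl

end Fermat.Agent.S37.NormEmb
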